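import Fermat.Agent.S14.Defs

/-!
# S14, Core-cl: the class of `𝔞` has the type of `α`
-/

set_option autoImplicit false

namespace Fermat.Agent.S14

open NumberField
open scoped nonZeroDivisors

theorem ideal_pow_left_injective {R : Type*} [CommRing R] [IsDedekindDomain R] {p : ℕ}
    (hp : p ≠ 0) {I J : Ideal R} (h : I ^ p = J ^ p) : I = J := by
  have h1 : I ∣ J := (UniqueFactorizationMonoid.pow_dvd_pow_iff_dvd hp).1 (by rw [h])
  have h2 : J ∣ I := (UniqueFactorizationMonoid.pow_dvd_pow_iff_dvd hp).1 (by rw [h])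
  exact associated_iff_eq.1 (associated_of_dvd_dvd h1 h2)

theorem core_class_type {K : Type*} [Field K] [NumberField K] {p : ℕ} (hp : p ≠ 0)
    (α : 𝓞 K) (h0 : α ≠ 0) (𝔞 : (Ideal (𝓞 K))⁰) (h𝔞 : (𝔞 : Ideal (𝓞 K)) ^ p = Ideal.span {α})
    (σ : K ≃ₐ[ℚ] K) (m : ℕ) (x : K) (hx : σ (α : K) = (α : K) ^ m * x ^ p) :
    ClassGroup.mulEquiv (sigO σ) (ClassGroup.mk0 𝔞) = ClassGroup.mk0 𝔞 ^ m := by
  obtain ⟨a, b, hb, rfl⟩ := IsFractionRing.div_surjective (A := 𝓞 K) x
  have hb0 : b ≠ 0 := nonZeroDivisors.ne_zero hb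
  have hbK : (algebraMap (𝓞 K) K b) ≠ 0 := by
    intro h
    exact hb0 (RingOfIntegers.coe_injective (by simpa using h))
  have hαK : (α : K) ≠ 0 := by
    intro h
    exact h0 (RingOfIntegers.coe_injective (by simpa using h))
  have ha0 : a ≠ 0 := by
    rintro rfl
    rw [map_zero, zero_div, zero_pow hp, mul_zero] at hx
    exact hαK ((map_eq_zero σ).1 hx)
  have hrel : b ^ p * sigO σ α = α ^ m * a ^ p := by
    apply RingOfIntegers.ext
    have e1 : ((b ^ p * sigO σ α : 𝓞 K) : K) = (algebraMap (𝓞 K) K b) ^ p * σ (α : K) := by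
      simp
    have e2 : ((α ^ m * a ^ p : 𝓞 K) : K) = (α : K) ^ m * (algebraMap (𝓞 K) K a) ^ p := by
      simp
    rw [e1, e2, hx, div_pow]
    field_simp
  have hideal : Ideal.span {b} * (𝔞 : Ideal (𝓞 K)).map (sigO σ : 𝓞 K →+* 𝓞 K) =
      Ideal.span {a} * (𝔞 : Ideal (𝓞 K)) ^ m := by
    apply ideal_pow_left_injective hp
    rw [mul_pow, mul_pow, ← Ideal.map_pow, h𝔞, Ideal.map_span, Set.image_singleton,
      Ideal.span_singleton_pow, Ideal.span_singleton_pow, Ideal.span_singleton_mul_span_singleton,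
      ← pow_mul, mul_comm m p, pow_mul, h𝔞, Ideal.span_singleton_pow,
      Ideal.span_singleton_mul_span_singleton]
    congr 2
    rw [mul_comm (a ^ p)]
    exact hrel
  rw [ClassGroup.mulEquiv_mk0, ← map_pow, ClassGroup.mk0_eq_mk0_iff]
  exact ⟨b, a, hb0, ha0, hideal⟩

end Fermat.Agent.S14
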