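import Fermat.Agent.S14.Defs
import Fermat.Agent.S14.GroupLemma

/-!
# S14, Core-act: a functional of type `ω²` on the class group from a class of type `ω²`
-/

set_option autoImplicit false

namespace Fermat.Agent.S14

open NumberField
open scoped nonZeroDivisors

/-- the action of the Galois group on the class group. -/
noncomputable def lamAct (K : Type*) [Field K] [NumberField K] :
    (K ≃ₐ[ℚ] K) →* MulAut (ClassGroup (𝓞 K)) where
  toFun δ := ClassGroup.mulEquiv (sigO δ)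
  map_one' := by
    ext C
    have h1 : sigO (1 : K ≃ₐ[ℚ] K) = RingEquiv.refl (𝓞 K) := by
      ext x; rfl
    rw [h1, ClassGroup.mulEquiv_refl_apply]
    rfl
  map_mul' δ₁ δ₂ := by
    ext C
    have h1 : sigO (δ₁ * δ₂) = (sigO δ₂).trans (sigO δ₁) := by
      ext x; rfl
    rw [h1, ClassGroup.mulEquiv_trans_apply]
    rfl

theorem lamAct_apply {K : Type*} [Field K] [NumberField K] (δ : K ≃ₐ[ℚ] K)
    (C : ClassGroup (𝓞 K)) : lamAct K δ C = ClassGroup.mulEquiv (sigO δ) C := rfl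

theorem lam_pow_val_eq {G : Type*} [Group G] {p : ℕ} [Fact p.Prime] (y : G) (hy : y ^ p = 1)
    (t : ZMod p) (n : ℕ) (ht : t = (n : ZMod p)) : y ^ (t ^ 2).val = y ^ (n ^ 2) := by
  have h1 : t ^ 2 = ((n ^ 2 : ℕ) : ZMod p) := by rw [ht]; push_cast; ring
  rw [h1, ZMod.val_natCast, ← pow_eq_pow_mod _ hy]

theorem core_exists_lam {K : Type*} [Field K] [NumberField K] {p : ℕ} [Fact p.Prime]
    [IsCyclotomicExtension {p} ℚ K] {ζ : 𝓞 K} (hζ : IsPrimitiveRoot ζ p)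
    (c : ClassGroup (𝓞 K)) (hc1 : c ≠ 1) (hcp : c ^ p = 1)
    (hc : ∀ (σ : K ≃ₐ[ℚ] K) (n : ℕ), sigO σ ζ = ζ ^ n →
      ClassGroup.mulEquiv (sigO σ) c = c ^ (n ^ 2)) :
    ∃ lam : ClassGroup (𝓞 K) →* Multiplicative (ZMod p), lam ≠ 1 ∧
      ∀ (σ : K ≃ₐ[ℚ] K) (n : ℕ), sigO σ ζ = ζ ^ n →
        ∀ c : ClassGroup (𝓞 K), lam (ClassGroup.mulEquiv (sigO σ) c) = lam c ^ (n ^ 2) := by
  have hp : p.Prime := Fact.out
  have hζK : IsPrimitiveRoot (ζ : K) p :=
    hζ.map_of_injective (f := algebraMap (𝓞 K) K) RingOfIntegers.coe_injective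
  set χ : (K ≃ₐ[ℚ] K) →* (ZMod p)ˣ := hζK.autToPow ℚ with hχ
  have hspec : ∀ σ : K ≃ₐ[ℚ] K, (ζ : K) ^ ((χ σ : (ZMod p)ˣ) : ZMod p).val = σ (ζ : K) :=
    fun σ => hζK.autToPow_spec ℚ σ
  -- key conversion
  have hkey : ∀ (σ : K ≃ₐ[ℚ] K) (n : ℕ), sigO σ ζ = ζ ^ n →
      ((χ σ : (ZMod p)ˣ) : ZMod p) = (n : ZMod p) := by
    intro σ n hn
    have h1 : σ (ζ : K) = (ζ : K) ^ n := by
      have := congrArg (fun a : 𝓞 K => (a : K)) hn
      simpa using this
    have h2 : (ζ : K) ^ ((χ σ : (ZMod p)ˣ) : ZMod p).val = (ζ : K) ^ n := (hspec σ).trans h1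
    have hfin : IsOfFinOrder (ζ : K) := isOfFinOrder_iff_pow_eq_one.mpr ⟨p, hp.pos, hζK.pow_eq_one⟩
    have h3 := hfin.pow_eq_pow_iff_modEq.mp h2
    rw [← hζK.eq_orderOf] at h3
    have h4 := (ZMod.natCast_eq_natCast_iff _ _ _).mpr h3
    rwa [ZMod.natCast_zmod_val] at h4
  have hself : ∀ σ : K ≃ₐ[ℚ] K, sigO σ ζ = ζ ^ ((χ σ : (ZMod p)ˣ) : ZMod p).val := by
    intro σ
    apply RingOfIntegers.ext
    have := (hspec σ).symm
    simpa using this
  have : IsGalois ℚ K := IsCyclotomicExtension.isGalois {p} ℚ K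
  have hΔ : ¬ p ∣ Nat.card (K ≃ₐ[ℚ] K) := by
    rw [IsGalois.card_aut_eq_finrank,
      IsCyclotomicExtension.finrank K (Polynomial.cyclotomic.irreducible_rat hp.pos),
      Nat.totient_prime hp]
    intro h
    have := Nat.le_of_dvd (by have := hp.two_le; omega) h
    have := hp.two_le
    omega
  obtain ⟨lam, hlam1, hlam⟩ := exists_equivariant_functional p hΔ (lamAct K)
    ((powMonoidHom 2).comp χ) c hc1 hcp (fun δ => by
      rw [lamAct_apply, hc δ _ (hself δ)]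
      simp only [MonoidHom.coe_comp, Function.comp_apply, powMonoidHom_apply, Units.val_pow_eq_pow_val]
      rw [lam_pow_val_eq c hcp _ _ (ZMod.natCast_zmod_val _).symm])
  refine ⟨lam, hlam1, fun σ n hn C => ?_⟩
  have h1 := hlam σ C
  rw [lamAct_apply] at h1
  rw [h1]
  simp only [MonoidHom.coe_comp, Function.comp_apply, powMonoidHom_apply, Units.val_pow_eq_pow_val]
  refine lam_pow_val_eq _ ?_ _ _ (hkey σ n hn)
  apply Multiplicative.toAdd.injective
  simp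

end Fermat.Agent.S14
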