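import Fermat.Agent.S14.Defs

/-!
# S14, Core-unit: the unit part of `α = ε γ^p` has the type of `α`
-/

set_option autoImplicit false

namespace Fermat.Agent.S14

open NumberField
open scoped nonZeroDivisors

theorem core_unit_type {K : Type*} [Field K] [NumberField K] {p : ℕ} (hp : p ≠ 0)
    (α : 𝓞 K) (h0 : α ≠ 0) (ε : (𝓞 K)ˣ) (γ : 𝓞 K) (hα : α = ε * γ ^ p)
    (σ : K ≃ₐ[ℚ] K) (m : ℕ) (x : K) (hx : σ (α : K) = (α : K) ^ m * x ^ p) :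
    ∃ u : (𝓞 K)ˣ, sigO σ (ε : 𝓞 K) = (ε : 𝓞 K) ^ m * (u : 𝓞 K) ^ p := by
  have hγ : γ ≠ 0 := by
    rintro rfl
    rw [zero_pow hp, mul_zero] at hα
    exact h0 hα
  have hg : (γ : K) ≠ 0 := by
    intro h
    exact hγ (RingOfIntegers.coe_injective (by simpa using h))
  have hσg : σ (γ : K) ≠ 0 := by
    intro h
    exact hg ((map_eq_zero σ).1 h)
  have hαK : (α : K) = ((ε : 𝓞 K) : K) * (γ : K) ^ p := by
    rw [hα]
    simp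
  set w : K := (γ : K) ^ m * x / σ (γ : K) with hw
  have hwp : w ^ p * ((ε : 𝓞 K) : K) ^ m = σ ((ε : 𝓞 K) : K) := by
    rw [hαK, map_mul, map_pow] at hx
    rw [hw, div_pow, div_mul_eq_mul_div, div_eq_iff (pow_ne_zero p hσg), hx]
    ring
  have hinv : ((ε : 𝓞 K) : K) * (((ε⁻¹ : (𝓞 K)ˣ) : 𝓞 K) : K) = 1 := by
    rw [← map_mul (algebraMap (𝓞 K) K)]
    simp
  have hwp' : w ^ p = ((sigO σ (ε : 𝓞 K) * ((ε⁻¹ : (𝓞 K)ˣ) : 𝓞 K) ^ m : 𝓞 K) : K) := by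
    have h1 : ((sigO σ (ε : 𝓞 K) * ((ε⁻¹ : (𝓞 K)ˣ) : 𝓞 K) ^ m : 𝓞 K) : K) =
        σ ((ε : 𝓞 K) : K) * (((ε⁻¹ : (𝓞 K)ˣ) : 𝓞 K) : K) ^ m := by
      simp
    rw [h1, ← hwp, mul_assoc, ← mul_pow, hinv, one_pow, mul_one]
  have hwint : IsIntegral ℤ w := by
    refine IsIntegral.of_pow (Nat.pos_of_ne_zero hp) ?_
    rw [hwp']
    exact RingOfIntegers.isIntegral_coe _
  let w' : 𝓞 K := ⟨w, hwint⟩
  have hw' : w' ^ p * (ε : 𝓞 K) ^ m = sigO σ (ε : 𝓞 K) := by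
    apply RingOfIntegers.ext
    have : ((w' ^ p * (ε : 𝓞 K) ^ m : 𝓞 K) : K) = w ^ p * ((ε : 𝓞 K) : K) ^ m := by
      rw [RingOfIntegers.coe_eq_algebraMap, map_mul, map_pow, map_pow]
      rfl
    rw [this, hwp]
    rfl
  have hunit : IsUnit (w' ^ p * (ε : 𝓞 K) ^ m) := by
    rw [hw']
    exact ε.isUnit.map (sigO σ)
  have hu : IsUnit w' := (isUnit_pow_iff hp).1 (isUnit_of_mul_isUnit_left hunit)
  refine ⟨hu.unit, ?_⟩
  rw [IsUnit.unit_spec, ← hw', mul_comm]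

end Fermat.Agent.S14
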