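import Fermat.Agent.S14.Core.Three
import Fermat.Agent.S14.Core.ClassType
import Fermat.Agent.S14.Core.Lam
import Fermat.Agent.S14.Core.UnitType
import Fermat.Agent.S14.An.Final
import Fermat.Agent.S14.Th.Main
import Fermat.Agent.S14.U.Main

/-!
# S14, block (Core): assembly
-/

set_option autoImplicit false

namespace Fermat.Agent.S14

open NumberField
open scoped nonZeroDivisors

theorem core_five {K : Type*} [Field K] [NumberField K] {p : ℕ} [Fact p.Prime] (hp5 : 5 ≤ p)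
    [IsCyclotomicExtension {p} ℚ K] {ζ : 𝓞 K} (hζ : IsPrimitiveRoot ζ p) (α : 𝓞 K) (h0 : α ≠ 0)
    (htype : ∀ (σ : K ≃ₐ[ℚ] K) (n : ℕ), sigO σ ζ = ζ ^ n →
      ∃ x : K, σ (α : K) = (α : K) ^ (n ^ 2) * x ^ p)
    (hideal : ∃ 𝔞 : Ideal (𝓞 K), 𝔞 ^ p = Ideal.span {α})
    (hloc : ∀ (ε : (𝓞 K)ˣ) (γ : 𝓞 K), α = ε * γ ^ p →
      ∃ n : ℤ, (ε : 𝓞 K) - (n : 𝓞 K) ∈ Ideal.span {1 - ζ} ^ 3) :
    ∃ x : 𝓞 K, x ^ p = α := by
  have hp0 : p ≠ 0 := by omega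
  obtain ⟨𝔞, h𝔞⟩ := hideal
  have h𝔞0 : 𝔞 ≠ 0 := by
    rintro rfl
    rw [zero_pow hp0] at h𝔞
    exact h0 (Ideal.span_singleton_eq_bot.1 h𝔞.symm)
  set A : (Ideal (𝓞 K))⁰ := ⟨𝔞, mem_nonZeroDivisors_of_ne_zero h𝔞0⟩ with hA
  have hAp : (A : Ideal (𝓞 K)) ^ p = Ideal.span {α} := h𝔞
  -- the class of `𝔞` is trivial
  have hc1 : ClassGroup.mk0 A = 1 := by
    by_contra hne
    have hcp : ClassGroup.mk0 A ^ p = 1 := by
      rw [← map_pow, ClassGroup.mk0_eq_one_iff]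
      have : ((A ^ p : (Ideal (𝓞 K))⁰) : Ideal (𝓞 K)) = Ideal.span {α} := by
        rw [← hAp]; rfl
      rw [this]
      exact ⟨⟨α, rfl⟩⟩
    have hc : ∀ (σ : K ≃ₐ[ℚ] K) (n : ℕ), sigO σ ζ = ζ ^ n →
        ClassGroup.mulEquiv (sigO σ) (ClassGroup.mk0 A) = ClassGroup.mk0 A ^ (n ^ 2) := by
      intro σ n hσ
      obtain ⟨x, hx⟩ := htype σ n hσ
      exact core_class_type hp0 α h0 A hAp σ (n ^ 2) x hx
    obtain ⟨lam, hlam1, hlam⟩ := core_exists_lam hζ _ hne hcp hc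
    have hζK : IsPrimitiveRoot ((ζ : 𝓞 K) : K) p :=
      hζ.map_of_injective RingOfIntegers.coe_injective
    obtain ⟨𝔯, h1, h2, h3, h4, h5⟩ := exists_prime_nonresidue (by omega) hζK lam hlam1
      (eta p ζ) (eta_not_pow hp5 hζ)
    exact h5 (thaine hp5 hζ lam hlam 𝔯 h1 h2 h3 h4)
  rw [ClassGroup.mk0_eq_one_iff] at hc1
  obtain ⟨γ, hγ⟩ := hc1.principal
  have h1 : Ideal.span {γ ^ p} = Ideal.span {α} := by
    rw [← h𝔞, hγ, Ideal.submodule_span_eq, Ideal.span_singleton_pow]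
  obtain ⟨ε, hε⟩ := Ideal.span_singleton_eq_span_singleton.1 h1
  have h2 : α = ε * γ ^ p := by rw [← hε]; ring
  have hty : ∀ (σ : K ≃ₐ[ℚ] K) (n : ℕ), sigO σ ζ = ζ ^ n →
      ∃ u : (𝓞 K)ˣ, sigO σ (ε : 𝓞 K) = (ε : 𝓞 K) ^ (n ^ 2) * (u : 𝓞 K) ^ p := by
    intro σ n hσ
    obtain ⟨x, hx⟩ := htype σ n hσ
    exact core_unit_type hp0 α h0 ε γ h2 σ (n ^ 2) x hx
  obtain ⟨u, hu⟩ := unit_isPow hp5 hζ ε hty (hloc ε γ h2)
  exact ⟨u * γ, by rw [h2, hu, mul_pow]; simp⟩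

theorem core {K : Type*} [Field K] [NumberField K] {p : ℕ} [Fact p.Prime] (hp3 : 3 ≤ p)
    [IsCyclotomicExtension {p} ℚ K] {ζ : 𝓞 K} (hζ : IsPrimitiveRoot ζ p) (α : 𝓞 K) (h0 : α ≠ 0)
    (htype : ∀ (σ : K ≃ₐ[ℚ] K) (n : ℕ), sigO σ ζ = ζ ^ n →
      ∃ x : K, σ (α : K) = (α : K) ^ (n ^ 2) * x ^ p)
    (hideal : ∃ 𝔞 : Ideal (𝓞 K), 𝔞 ^ p = Ideal.span {α})
    (hloc : ∀ (ε : (𝓞 K)ˣ) (γ : 𝓞 K), α = ε * γ ^ p →
      ∃ n : ℤ, (ε : 𝓞 K) - (n : 𝓞 K) ∈ Ideal.span {1 - ζ} ^ 3) :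
    ∃ x : 𝓞 K, x ^ p = α := by
  rcases Nat.lt_or_ge p 5 with h | h
  · have hp : p = 3 := by
      have hpr : p.Prime := Fact.out
      interval_cases p
      · rfl
      · exact absurd hpr (by decide)
    subst hp
    exact core_three hζ α hideal hloc
  · exact core_five h hζ α h0 htype hideal hloc

end Fermat.Agent.S14
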