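import Fermat.Agent.S14.Defs

/-!
# S14, block (Core): the case `p = 3`
-/

set_option autoImplicit false

namespace Fermat.Agent.S14

open NumberField

theorem core_three {K : Type*} [Field K] [NumberField K]
    [IsCyclotomicExtension {3} ℚ K] {ζ : 𝓞 K} (hζ : IsPrimitiveRoot ζ 3) (α : 𝓞 K)
    (hideal : ∃ 𝔞 : Ideal (𝓞 K), 𝔞 ^ 3 = Ideal.span {α})
    (hloc : ∀ (ε : (𝓞 K)ˣ) (γ : 𝓞 K), α = ε * γ ^ 3 →
      ∃ n : ℤ, (ε : 𝓞 K) - (n : 𝓞 K) ∈ Ideal.span {1 - ζ} ^ 3) :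
    ∃ x : 𝓞 K, x ^ 3 = α := by
  haveI := IsCyclotomicExtension.Rat.three_pid K
  obtain ⟨𝔞, h𝔞⟩ := hideal
  obtain ⟨γ, hγ⟩ := (IsPrincipalIdealRing.principal 𝔞).principal
  have h1 : Ideal.span {γ ^ 3} = Ideal.span {α} := by
    rw [← h𝔞, hγ, Ideal.submodule_span_eq, Ideal.span_singleton_pow]
  obtain ⟨ε, hε⟩ := Ideal.span_singleton_eq_span_singleton.1 h1
  have h2 : α = ε * γ ^ 3 := by rw [← hε]; ring
  obtain ⟨n, hn⟩ := hloc ε γ h2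
  have hζK : IsPrimitiveRoot ((ζ : 𝓞 K) : K) 3 :=
    hζ.map_of_injective (RingOfIntegers.coe_injective)
  have htoInt : hζK.toInteger = ζ := by ext; rfl
  have hcong : ∃ n : ℤ, (hζK.toInteger - 1) ^ 2 ∣ ((ε : 𝓞 K) - n : 𝓞 K) := by
    refine ⟨n, ?_⟩
    rw [Ideal.span_singleton_pow, Ideal.mem_span_singleton] at hn
    rw [htoInt]
    refine dvd_trans ?_ hn
    exact ⟨1 - ζ, by ring⟩
  rcases IsCyclotomicExtension.Rat.Three.eq_one_or_neg_one_of_unit_of_congruent hζK ε hcong with h | h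
  · exact ⟨γ, by rw [h2, h]; simp⟩
  · exact ⟨-γ, by rw [h2, h]; simp; ring⟩

end Fermat.Agent.S14
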